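import Mathlib
import Fermat.Prelude.Def_EllipticCurve_FrobeniusTrace
import Fermat.Prelude.Def_FLTPrelim_Ramification

set_option autoImplicit false

/-!
# From a valuation-theoretic Frobenius congruence to `ValuationSubring.IsFrobeniusAt`
-/

namespace Fermat.Agent.Lib.Frobenius

open scoped Pointwise

variable {K L : Type*} [Field K] [Field L] [Algebra K L]

/-- If `σ a ≡ a ^ ℓ` modulo the maximal ideal of `A` for all `a ∈ A`, then `σ` maps `A` to `A`. -/
theorem apply_mem_of_forall_valuation_lt (A : ValuationSubring L) (σ : L ≃ₐ[K] L) (ℓ : ℕ)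
    (h : ∀ a : L, a ∈ A → A.valuation (σ a - a ^ ℓ) < 1) (a : L) (ha : a ∈ A) : σ a ∈ A := by
  rw [← A.valuation_le_one_iff]
  have h1 : σ a = (σ a - a ^ ℓ) + a ^ ℓ := by ring
  rw [h1]
  refine (A.valuation.map_add _ _).trans (max_le (h a ha).le ?_)
  rw [map_pow]
  exact pow_le_one₀ zero_le ((A.valuation_le_one_iff a).mpr ha)

theorem ne_zero_of_forall_valuation_lt (A : ValuationSubring L) (σ : L ≃ₐ[K] L) (ℓ : ℕ)
    (h : ∀ a : L, a ∈ A → A.valuation (σ a - a ^ ℓ) < 1) : ℓ ≠ 0 := by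
  rintro rfl
  have := h 0 A.zero_mem
  simp at this

/-- `σ` maps non-units of `A` to non-units. -/
theorem apply_mem_nonunits_of_forall_valuation_lt (A : ValuationSubring L) (σ : L ≃ₐ[K] L)
    (ℓ : ℕ) (h : ∀ a : L, a ∈ A → A.valuation (σ a - a ^ ℓ) < 1) (a : L)
    (ha : a ∈ A.nonunits) : σ a ∈ A.nonunits := by
  have hℓ : ℓ ≠ 0 := ne_zero_of_forall_valuation_lt A σ ℓ h
  have ha' : A.valuation a < 1 := ha
  show A.valuation (σ a) < 1
  have h1 : σ a = (σ a - a ^ ℓ) + a ^ ℓ := by ring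
  rw [h1]
  refine Valuation.map_add_lt _ (h a (A.nonunits_subset ha)) ?_
  rw [map_pow]
  exact pow_lt_one₀ zero_le ha' hℓ

/-- `σ⁻¹` maps `A` to `A`. -/
theorem symm_apply_mem_of_forall_valuation_lt (A : ValuationSubring L) (σ : L ≃ₐ[K] L) (ℓ : ℕ)
    (h : ∀ a : L, a ∈ A → A.valuation (σ a - a ^ ℓ) < 1) (a : L) (ha : a ∈ A) :
    σ.symm a ∈ A := by
  by_contra hna
  have hinv : (σ.symm a)⁻¹ ∈ A.nonunits := A.inv_mem_nonunits_iff.mpr (Or.inr hna)
  have h2 := apply_mem_nonunits_of_forall_valuation_lt A σ ℓ h _ hinv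
  rw [map_inv₀, AlgEquiv.apply_symm_apply] at h2
  rcases A.inv_mem_nonunits_iff.mp h2 with h0 | h0
  · apply hna
    rw [h0, map_zero]
    exact A.zero_mem
  · exact h0 ha

/-- `σ` lies in the decomposition group of `A`. -/
theorem mem_decompositionSubgroup_of_forall_valuation_lt (A : ValuationSubring L)
    (σ : L ≃ₐ[K] L) (ℓ : ℕ) (h : ∀ a : L, a ∈ A → A.valuation (σ a - a ^ ℓ) < 1) :
    σ ∈ A.decompositionSubgroup K := by
  rw [MulAction.mem_stabilizer_iff]
  refine ValuationSubring.ext _ _ fun x => ?_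
  rw [ValuationSubring.mem_pointwise_smul_iff_inv_smul_mem]
  constructor
  · intro hx
    have := apply_mem_of_forall_valuation_lt A σ ℓ h _ hx
    have h3 : σ (σ⁻¹ • x) = x := by
      show σ (σ⁻¹ x) = x
      exact AlgEquiv.apply_symm_apply σ x
    rwa [h3] at this
  · intro hx
    exact symm_apply_mem_of_forall_valuation_lt A σ ℓ h x hx

/-- The main bridge: a valuation-theoretic Frobenius congruence gives `IsFrobeniusAt`. -/
theorem isFrobeniusAt_of_forall_valuation_lt (A : ValuationSubring L) (σ : L ≃ₐ[K] L) (ℓ : ℕ)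
    (h : ∀ a : L, a ∈ A → A.valuation (σ a - a ^ ℓ) < 1) : A.IsFrobeniusAt σ ℓ := by
  refine ⟨mem_decompositionSubgroup_of_forall_valuation_lt A σ ℓ h, fun x => ?_⟩
  obtain ⟨a, rfl⟩ := IsLocalRing.residue_surjective x
  rw [← IsLocalRing.ResidueField.residue_smul, ← map_pow, ← sub_eq_zero, ← map_sub,
    IsLocalRing.residue_eq_zero_iff, ValuationSubring.valuation_lt_one_iff]
  exact h a a.2

end Fermat.Agent.Lib.Frobenius
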