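import Mathlib
import Fermat.Prelude.Def_EllipticCurve_FrobeniusTrace
import Fermat.Agent.Lib.FrobeniusFinal

/-!
# Existence of Frobenius elements in `Gal(ℚ̄/ℚ)`

For every valuation subring `A` of `AlgebraicClosure ℚ` lying over a prime `ℓ` there is a
`σ` with `A.IsFrobeniusAt σ ℓ`; and such `A` exist.
-/

set_option autoImplicit false
set_option linter.style.haveILetI false

namespace Fermat.Agent.Lib.Frobenius

open scoped Pointwise
open Polynomial

/-- Seidenberg-type lemma: if `R` is integrally closed in the field `L`, `Q` is an ideal of `R`,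
and `x : L` is a root of a polynomial over `R` with a coefficient outside `Q`, then either
`x = b / s` or `x⁻¹ = b / s` with `b, s ∈ R`, `s ∉ Q`. -/
theorem exists_mul_eq_of_aeval_eq_zero {R L : Type*} [CommRing R] [Field L] [Algebra R L]
    (hic : ∀ y : L, IsIntegral R y → ∃ r : R, algebraMap R L r = y) (Q : Ideal R) (x : L) :
    ∀ (n : ℕ) (p : R[X]), p.natDegree ≤ n → aeval x p = 0 → (∃ i, p.coeff i ∉ Q) →
      ∃ b s : R, s ∉ Q ∧ (algebraMap R L s * x = algebraMap R L b ∨
        algebraMap R L b * x = algebraMap R L s) := by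
  intro n
  induction n with
  | zero =>
    intro p hp hx ⟨i, hi⟩
    have hpC : p = C (p.coeff 0) := eq_C_of_natDegree_le_zero hp
    have hi0 : i = 0 := by
      by_contra h
      apply hi
      rw [hpC, coeff_C, if_neg h]
      exact Q.zero_mem
    subst hi0
    rw [hpC, aeval_C] at hx
    exact ⟨0, p.coeff 0, hi, Or.inl (by rw [hx, zero_mul, map_zero])⟩
  | succ n ih =>
    intro p hp hx ⟨i, hi⟩
    by_cases hdeg : p.natDegree ≤ n
    · exact ih p hdeg hx ⟨i, hi⟩
    have hdeg' : p.natDegree = n + 1 := by omega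
    obtain ⟨y, hy⟩ := hic _ (isIntegral_leadingCoeff_smul p x hx)
    rw [Algebra.smul_def] at hy
    by_cases hc : p.leadingCoeff ∈ Q
    · -- lower the degree
      set q : R[X] := p.eraseLead + C y * X ^ n with hq
      have hqdeg : q.natDegree ≤ n := by
        refine (natDegree_add_le _ _).trans (max_le ?_ ?_)
        · have := eraseLead_natDegree_le p
          omega
        · exact natDegree_C_mul_X_pow_le y n
      have hqx : aeval x q = 0 := by
        have h1 : aeval x p = aeval x p.eraseLead + algebraMap R L p.leadingCoeff * x ^ (n + 1) := by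
          conv_lhs => rw [← eraseLead_add_C_mul_X_pow p, hdeg']
          simp [aeval_C]
        rw [hq, map_add, map_mul, aeval_C, map_pow, aeval_X, hy]
        rw [hx] at h1
        rw [h1]
        ring
      by_cases hqQ : ∃ j, q.coeff j ∉ Q
      · exact ih q hqdeg hqx hqQ
      · have hqQ' : ∀ j, q.coeff j ∈ Q := fun j => by
          by_contra h
          exact hqQ ⟨j, h⟩
        have hile : i ≤ n + 1 := by
          by_contra h
          apply hi
          rw [coeff_eq_zero_of_natDegree_lt (by omega)]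
          exact Q.zero_mem
        have hine : i ≠ n + 1 := by
          rintro rfl
          apply hi
          rw [← hdeg']
          exact hc
        have hin : i = n := by
          by_contra h
          apply hi
          have := hqQ' i
          rwa [hq, coeff_add, coeff_C_mul, coeff_X_pow, if_neg h, mul_zero, add_zero,
            eraseLead_coeff, if_neg (by omega)] at this
        subst hin
        have hyQ : y ∉ Q := by
          intro hyQ
          apply hi
          have := hqQ' i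
          rw [hq, coeff_add, coeff_C_mul, coeff_X_pow, if_pos rfl, mul_one,
            eraseLead_coeff, if_neg (by omega)] at this
          have h2 := Q.sub_mem this hyQ
          rwa [add_sub_cancel_right] at h2
        exact ⟨p.leadingCoeff, y, hyQ, Or.inr hy.symm⟩
    · exact ⟨y, p.leadingCoeff, hc, Or.inl hy.symm⟩

local instance isAlgebraicQbar : Algebra.IsAlgebraic ℚ (AlgebraicClosure ℚ) :=
  AlgebraicClosure.isAlgebraic ℚ
local instance isAlgClosureQbar : IsAlgClosure ℚ (AlgebraicClosure ℚ) :=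
  ⟨inferInstance, inferInstance⟩
local instance normalQbar : Normal ℚ (AlgebraicClosure ℚ) :=
  IsAlgClosure.normal ℚ (AlgebraicClosure ℚ)

/-- The ring of all algebraic integers inside `AlgebraicClosure ℚ`. -/
noncomputable abbrev ZBar : Subalgebra ℤ (AlgebraicClosure ℚ) :=
  integralClosure ℤ (AlgebraicClosure ℚ)

/-- The Galois action on algebraic integers. -/
noncomputable local instance zbarAction :
    MulSemiringAction (AlgebraicClosure ℚ ≃ₐ[ℚ] AlgebraicClosure ℚ) ZBar :=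
  IsIntegralClosure.MulSemiringAction ℤ ℚ (AlgebraicClosure ℚ) ZBar

theorem zbar_smul_coe (σ : AlgebraicClosure ℚ ≃ₐ[ℚ] AlgebraicClosure ℚ) (b : ZBar) :
    ((σ • b : ZBar) : AlgebraicClosure ℚ) = σ (b : AlgebraicClosure ℚ) :=
  algebraMap_galRestrict_apply ℤ σ b

theorem zbar_isInvariant :
    Algebra.IsInvariant ℤ ZBar (AlgebraicClosure ℚ ≃ₐ[ℚ] AlgebraicClosure ℚ) := by
  refine ⟨fun b hb => ?_⟩
  have h1 : ∀ f : AlgebraicClosure ℚ ≃ₐ[ℚ] AlgebraicClosure ℚ,
      f (b : AlgebraicClosure ℚ) = (b : AlgebraicClosure ℚ) := fun f => by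
    rw [← zbar_smul_coe, hb f]
  obtain ⟨r, hr⟩ := (InfiniteGalois.mem_range_algebraMap_iff_fixed (k := ℚ)
    (K := AlgebraicClosure ℚ) (b : AlgebraicClosure ℚ)).2 h1
  have hbint : IsIntegral ℤ (b : AlgebraicClosure ℚ) := b.2
  rw [← hr, isIntegral_algebraMap_iff (FaithfulSMul.algebraMap_injective ℚ (AlgebraicClosure ℚ))]
    at hbint
  obtain ⟨n, hn⟩ := IsIntegrallyClosed.algebraMap_eq_of_integral hbint
  refine ⟨n, Subtype.ext ?_⟩
  rw [← hr, ← hn]
  simp

theorem zbar_stabilizer_isOpen (b : ZBar) :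
    IsOpen (MulAction.stabilizer (AlgebraicClosure ℚ ≃ₐ[ℚ] AlgebraicClosure ℚ) b :
      Set (AlgebraicClosure ℚ ≃ₐ[ℚ] AlgebraicClosure ℚ)) := by
  have h := stabilizer_isOpen_of_isIntegral (K := ℚ) (L := AlgebraicClosure ℚ)
    (b : AlgebraicClosure ℚ)
  convert h using 1
  ext σ
  simp only [SetLike.mem_coe, MulAction.mem_stabilizer_iff]
  constructor
  · intro h
    have := congrArg (Subtype.val) h
    rwa [zbar_smul_coe] at this
  · intro h
    apply Subtype.ext
    rw [zbar_smul_coe]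
    exact h


section place

variable (A : ValuationSubring (AlgebraicClosure ℚ))

theorem zbar_valuation_le_one (b : ZBar) : A.valuation (b : AlgebraicClosure ℚ) ≤ 1 := by
  rw [ValuationSubring.valuation_le_one_iff]
  have hb : IsIntegral ℤ (b : AlgebraicClosure ℚ) := b.2
  have hb' : IsIntegral A (b : AlgebraicClosure ℚ) := hb.tower_top
  obtain ⟨y, hy⟩ := IsIntegrallyClosed.algebraMap_eq_of_integral hb'
  rw [← hy]
  exact y.2

/-- The prime of `ZBar` cut out by a valuation subring. -/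
noncomputable def primeOf : Ideal ZBar where
  carrier := {b | A.valuation (b : AlgebraicClosure ℚ) < 1}
  add_mem' := fun {a b} ha hb => by
    change A.valuation _ < 1 at ha hb ⊢
    exact lt_of_le_of_lt (A.valuation.map_add _ _) (max_lt ha hb)
  zero_mem' := by simp
  smul_mem' := fun c x hx => by
    change A.valuation _ < 1 at hx ⊢
    simp only [smul_eq_mul, Subalgebra.coe_mul, map_mul]
    calc A.valuation (c : AlgebraicClosure ℚ) * A.valuation (x : AlgebraicClosure ℚ)
        ≤ 1 * A.valuation (x : AlgebraicClosure ℚ) :=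
          mul_le_mul_left (zbar_valuation_le_one A c) _
      _ = A.valuation (x : AlgebraicClosure ℚ) := one_mul _
      _ < 1 := hx

theorem mem_primeOf {b : ZBar} : b ∈ primeOf A ↔ A.valuation (b : AlgebraicClosure ℚ) < 1 :=
  Iff.rfl

theorem not_mem_primeOf {b : ZBar} :
    b ∉ primeOf A ↔ A.valuation (b : AlgebraicClosure ℚ) = 1 := by
  rw [mem_primeOf, not_lt]
  exact ⟨fun h => le_antisymm (zbar_valuation_le_one A b) h, fun h => h.ge⟩

instance primeOf_isPrime : (primeOf A).IsPrime := by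
  refine ⟨?_, ?_⟩
  · rw [Ideal.ne_top_iff_one]
    rw [not_mem_primeOf]
    simp
  · intro x y hxy
    by_contra h
    rw [not_or, not_mem_primeOf, not_mem_primeOf] at h
    rw [mem_primeOf, Subalgebra.coe_mul, map_mul, h.1, h.2, one_mul] at hxy
    exact lt_irrefl _ hxy


variable {A} in
theorem valuation_natCast_lt_one {ℓ : ℕ} (hA : A.LiesOverPrime ℓ) :
    A.valuation ((ℓ : ℕ) : AlgebraicClosure ℚ) < 1 :=
  (ValuationSubring.mem_nonunits_iff A).1 hA

variable {A} in
theorem intCast_mem_primeOf_iff {ℓ : ℕ} (hℓ : ℓ.Prime) (hA : A.LiesOverPrime ℓ) (n : ℤ) :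
    algebraMap ℤ ZBar n ∈ primeOf A ↔ n ∈ Ideal.span {(ℓ : ℤ)} := by
  rw [mem_primeOf, Ideal.mem_span_singleton]
  have hcoe : ((algebraMap ℤ ZBar n : ZBar) : AlgebraicClosure ℚ) = (n : AlgebraicClosure ℚ) := by
    simp
  rw [hcoe]
  constructor
  · intro h
    by_contra hdvd
    have hcop : IsCoprime (ℓ : ℤ) n := by
      rw [Int.isCoprime_iff_gcd_eq_one]
      have := (Int.prime_iff_natAbs_prime.2 (by simpa using hℓ) : Prime (ℓ : ℤ))
      exact Int.isCoprime_iff_gcd_eq_one.1 ((Prime.coprime_iff_not_dvd this).2 hdvd)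
    obtain ⟨a, b, hab⟩ := hcop
    have h1 : A.valuation ((a : AlgebraicClosure ℚ) * (ℓ : ℕ) + (b : AlgebraicClosure ℚ) * n) < 1 := by
      refine lt_of_le_of_lt (A.valuation.map_add _ _) (max_lt ?_ ?_)
      · rw [map_mul]
        calc A.valuation (a : AlgebraicClosure ℚ) * A.valuation ((ℓ : ℕ) : AlgebraicClosure ℚ)
            ≤ 1 * A.valuation ((ℓ : ℕ) : AlgebraicClosure ℚ) :=
              mul_le_mul_left (by simp) _
          _ < 1 := by rw [one_mul]; exact valuation_natCast_lt_one hA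
      · rw [map_mul]
        calc A.valuation (b : AlgebraicClosure ℚ) * A.valuation (n : AlgebraicClosure ℚ)
            ≤ 1 * A.valuation (n : AlgebraicClosure ℚ) :=
              mul_le_mul_left (by simp) _
          _ < 1 := by rw [one_mul]; exact h
    have h2 : ((a : AlgebraicClosure ℚ) * (ℓ : ℕ) + (b : AlgebraicClosure ℚ) * n) = 1 := by
      have := congrArg (fun z : ℤ => (z : AlgebraicClosure ℚ)) hab
      simpa using this
    rw [h2, map_one] at h1
    exact lt_irrefl _ h1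
  · rintro ⟨k, rfl⟩
    push_cast
    rw [map_mul]
    calc A.valuation ((ℓ : ℕ) : AlgebraicClosure ℚ) * A.valuation (k : AlgebraicClosure ℚ)
        ≤ A.valuation ((ℓ : ℕ) : AlgebraicClosure ℚ) * 1 :=
          mul_le_mul_right (by simp) _
      _ < 1 := by rw [mul_one]; exact valuation_natCast_lt_one hA

variable {A} in
theorem primeOf_liesOver {ℓ : ℕ} (hℓ : ℓ.Prime) (hA : A.LiesOverPrime ℓ) :
    (primeOf A).LiesOver (Ideal.span {(ℓ : ℤ)}) := by
  refine ⟨?_⟩
  ext n
  rw [Ideal.under_def, Ideal.mem_comap, intCast_mem_primeOf_iff hℓ hA]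


variable {A} in
theorem exists_sigma_zbar {ℓ : ℕ} (hℓ : ℓ.Prime) (hA : A.LiesOverPrime ℓ) :
    ∃ σ : AlgebraicClosure ℚ ≃ₐ[ℚ] AlgebraicClosure ℚ,
      ∀ b : ZBar, σ • b - b ^ ℓ ∈ primeOf A := by
  haveI hlo := primeOf_liesOver hℓ hA
  letI : TopologicalSpace ZBar := ⊥
  haveI : DiscreteTopology ZBar := ⟨rfl⟩
  haveI : ContinuousSMul (AlgebraicClosure ℚ ≃ₐ[ℚ] AlgebraicClosure ℚ) ZBar :=
    continuousSMul_iff_stabilizer_isOpen.2 zbar_stabilizer_isOpen
  haveI := zbar_isInvariant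
  haveI : Fact ℓ.Prime := ⟨hℓ⟩
  haveI : CharP (ZBar ⧸ primeOf A) ℓ := by
    rw [CharP.charP_iff_prime_eq_zero hℓ]
    have : ((ℓ : ℕ) : ZBar ⧸ primeOf A) = Ideal.Quotient.mk (primeOf A) ((ℓ : ℕ) : ZBar) := by
      simp
    rw [this, Ideal.Quotient.eq_zero_iff_mem, mem_primeOf]
    simpa using valuation_natCast_lt_one hA
  have hinj : Function.Injective (frobenius (ZBar ⧸ primeOf A) ℓ) := frobenius_inj _ ℓ
  have hsurj : Function.Surjective (frobenius (ZBar ⧸ primeOf A) ℓ) := by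
    intro x
    obtain ⟨b, rfl⟩ := Ideal.Quotient.mk_surjective x
    obtain ⟨c, hc⟩ := IsAlgClosed.exists_pow_nat_eq (b : AlgebraicClosure ℚ) hℓ.pos
    have hcint : IsIntegral ℤ c := by
      have hb : IsIntegral ℤ (c ^ ℓ) := by rw [hc]; exact b.2
      exact IsIntegral.of_pow hℓ.pos hb
    refine ⟨Ideal.Quotient.mk _ ⟨c, hcint⟩, ?_⟩
    rw [frobenius_def, ← map_pow]
    congr 1
    exact Subtype.ext hc
  let F : (ZBar ⧸ primeOf A) ≃ₐ[ℤ ⧸ Ideal.span {(ℓ : ℤ)}] (ZBar ⧸ primeOf A) :=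
    AlgEquiv.ofRingEquiv (f := RingEquiv.ofBijective (frobenius (ZBar ⧸ primeOf A) ℓ) ⟨hinj, hsurj⟩)
      (by
        intro x
        obtain ⟨n, rfl⟩ := Ideal.Quotient.mk_surjective x
        have h1 : algebraMap (ℤ ⧸ Ideal.span {(ℓ : ℤ)}) (ZBar ⧸ primeOf A)
            (Ideal.Quotient.mk _ n) = ((n : ℤ) : ZBar ⧸ primeOf A) := by
          rw [Ideal.Quotient.algebraMap_mk_of_liesOver]
          simp
        rw [h1]
        simp)
  obtain ⟨⟨σ, hσ⟩, h⟩ := Ideal.Quotient.stabilizerHom_surjective_of_profinite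
    (G := AlgebraicClosure ℚ ≃ₐ[ℚ] AlgebraicClosure ℚ) (Ideal.span {(ℓ : ℤ)}) (primeOf A) F
  refine ⟨σ, fun b => ?_⟩
  have h2 := DFunLike.congr_fun h (Ideal.Quotient.mk _ b)
  rw [Ideal.Quotient.stabilizerHom_apply] at h2
  have h3 : F (Ideal.Quotient.mk _ b) = Ideal.Quotient.mk _ (b ^ ℓ) := by
    rw [map_pow]
    rfl
  rw [h3] at h2
  exact Ideal.Quotient.eq.1 h2


theorem zbar_hic (y : AlgebraicClosure ℚ) (hy : IsIntegral ZBar y) :
    ∃ r : ZBar, algebraMap ZBar (AlgebraicClosure ℚ) r = y := by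
  have h1 : IsIntegral ℤ y := isIntegral_trans y hy
  exact ⟨⟨y, h1⟩, rfl⟩

variable {A} in
/-- Every element of a valuation subring over `ℓ` is a fraction of algebraic integers with
denominator a unit of `A`. -/
theorem exists_frac {ℓ : ℕ} (hℓ : ℓ.Prime) (hA : A.LiesOverPrime ℓ) (a : AlgebraicClosure ℚ)
    (ha : a ∈ A) : ∃ b s : ZBar, s ∉ primeOf A ∧
      (s : AlgebraicClosure ℚ) * a = (b : AlgebraicClosure ℚ) := by
  have halg : IsAlgebraic ℤ a :=
    (IsFractionRing.isAlgebraic_iff ℤ ℚ (AlgebraicClosure ℚ)).2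
      (Algebra.IsAlgebraic.isAlgebraic a)
  obtain ⟨p, hp0, hpa⟩ := halg
  -- primitive part
  have hq : aeval a p.primPart = 0 := by
    have h1 : aeval a p = aeval a (C p.content * p.primPart) := by
      rw [← eq_C_content_mul_primPart]
    rw [hpa, map_mul, aeval_C] at h1
    have hc : algebraMap ℤ (AlgebraicClosure ℚ) p.content ≠ 0 := by
      simpa using (content_eq_zero_iff.not.2 hp0)
    exact (mul_eq_zero.1 h1.symm).resolve_left hc
  have hprim : p.primPart.IsPrimitive := isPrimitive_primPart p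
  have hex : ∃ i, ¬ ((ℓ : ℤ) ∣ p.primPart.coeff i) := by
    by_contra h
    have h' : ∀ i, (ℓ : ℤ) ∣ p.primPart.coeff i := fun i => by
      by_contra hi
      exact h ⟨i, hi⟩
    have hu : IsUnit (ℓ : ℤ) := hprim _ ((C_dvd_iff_dvd_coeff _ _).2 h')
    have hpr : Prime (ℓ : ℤ) := Nat.prime_iff_prime_int.1 hℓ
    exact hpr.not_isUnit hu
  obtain ⟨i, hi⟩ := hex
  set P : ZBar[X] := p.primPart.map (algebraMap ℤ ZBar) with hP
  have hPa : aeval a P = 0 := by
    rw [hP, aeval_map_algebraMap]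
    exact hq
  have hPi : P.coeff i ∉ primeOf A := by
    rw [hP, coeff_map, intCast_mem_primeOf_iff hℓ hA, Ideal.mem_span_singleton]
    exact hi
  obtain ⟨b, s, hs, h | h⟩ := exists_mul_eq_of_aeval_eq_zero zbar_hic (primeOf A) a
    P.natDegree P le_rfl hPa ⟨i, hPi⟩
  · exact ⟨b, s, hs, h⟩
  · refine ⟨s, b, ?_, h⟩
    rw [not_mem_primeOf] at hs ⊢
    have h1 : A.valuation (b : AlgebraicClosure ℚ) * A.valuation a = 1 := by
      have := congrArg A.valuation h
      rw [map_mul] at this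
      exact this.trans hs
    have hb1 := zbar_valuation_le_one A b
    have ha1 : A.valuation a ≤ 1 := (A.valuation_le_one_iff a).2 ha
    by_contra hne
    have hlt : A.valuation (b : AlgebraicClosure ℚ) < 1 := lt_of_le_of_ne hb1 hne
    have : A.valuation (b : AlgebraicClosure ℚ) * A.valuation a < 1 :=
      lt_of_le_of_lt (mul_le_mul_right ha1 _) (by rwa [mul_one])
    rw [h1] at this
    exact lt_irrefl _ this

variable {A} in
/-- For every valuation subring `A` over `ℓ` there is a Galois element acting as `x ↦ x ^ ℓ`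
modulo the maximal ideal of `A`. -/
theorem exists_frob_val {ℓ : ℕ} (hℓ : ℓ.Prime) (hA : A.LiesOverPrime ℓ) :
    ∃ σ : AlgebraicClosure ℚ ≃ₐ[ℚ] AlgebraicClosure ℚ,
      ∀ a : AlgebraicClosure ℚ, a ∈ A → A.valuation (σ a - a ^ ℓ) < 1 := by
  obtain ⟨σ, hσ⟩ := exists_sigma_zbar hℓ hA
  refine ⟨σ, fun a ha => ?_⟩
  obtain ⟨b, s, hs, hsab⟩ := exists_frac hℓ hA a ha
  have hσ' : ∀ c : ZBar, A.valuation (σ (c : AlgebraicClosure ℚ) - (c : AlgebraicClosure ℚ) ^ ℓ)
      < 1 := fun c => by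
    have := hσ c
    rw [mem_primeOf] at this
    simpa [zbar_smul_coe] using this
  rw [not_mem_primeOf] at hs
  have ha1 : A.valuation a ≤ 1 := (A.valuation_le_one_iff a).2 ha
  have hσs : A.valuation (σ (s : AlgebraicClosure ℚ)) = 1 := by
    have h1 : σ (s : AlgebraicClosure ℚ) =
        (s : AlgebraicClosure ℚ) ^ ℓ + (σ (s : AlgebraicClosure ℚ) - (s : AlgebraicClosure ℚ) ^ ℓ) := by
      ring
    have h2 : A.valuation ((s : AlgebraicClosure ℚ) ^ ℓ) = 1 := by
      rw [map_pow, hs, one_pow]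
    rw [h1, Valuation.map_add_eq_of_lt_left _ (by rw [h2]; exact hσ' s), h2]
  have hkey : σ (s : AlgebraicClosure ℚ) * (σ a - a ^ ℓ) =
      (σ (b : AlgebraicClosure ℚ) - (b : AlgebraicClosure ℚ) ^ ℓ) -
        (σ (s : AlgebraicClosure ℚ) - (s : AlgebraicClosure ℚ) ^ ℓ) * a ^ ℓ := by
    have h1 : σ (s : AlgebraicClosure ℚ) * σ a = σ (b : AlgebraicClosure ℚ) := by
      rw [← map_mul, hsab]
    have h2 : (b : AlgebraicClosure ℚ) ^ ℓ = (s : AlgebraicClosure ℚ) ^ ℓ * a ^ ℓ := by
      rw [← hsab, mul_pow]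
    rw [h2, ← h1]
    ring
  have hlt : A.valuation (σ (s : AlgebraicClosure ℚ) * (σ a - a ^ ℓ)) < 1 := by
    rw [hkey]
    refine lt_of_le_of_lt (A.valuation.map_sub _ _) (max_lt (hσ' b) ?_)
    rw [map_mul, map_pow]
    calc A.valuation (σ (s : AlgebraicClosure ℚ) - (s : AlgebraicClosure ℚ) ^ ℓ) * A.valuation a ^ ℓ
        ≤ A.valuation (σ (s : AlgebraicClosure ℚ) - (s : AlgebraicClosure ℚ) ^ ℓ) * 1 :=
          mul_le_mul_right (pow_le_one₀ zero_le ha1) _
      _ < 1 := by rw [mul_one]; exact hσ' s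
  rwa [map_mul, hσs, one_mul] at hlt


end place

/-- For every valuation subring `A` of `AlgebraicClosure ℚ` over a prime `ℓ` there is a
Frobenius element. -/
theorem exists_isFrobeniusAt_of_liesOverPrime (A : ValuationSubring (AlgebraicClosure ℚ))
    {ℓ : ℕ} (hℓ : ℓ.Prime) (hA : A.LiesOverPrime ℓ) :
    ∃ σ : AlgebraicClosure ℚ ≃ₐ[ℚ] AlgebraicClosure ℚ, A.IsFrobeniusAt σ ℓ := by
  obtain ⟨σ, hσ⟩ := exists_frob_val hℓ hA
  exact ⟨σ, isFrobeniusAt_of_forall_valuation_lt A σ ℓ hσ⟩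

/-- Valuation subrings of `AlgebraicClosure ℚ` over any prime `ℓ` exist. -/
theorem exists_liesOverPrime {ℓ : ℕ} (hℓ : ℓ.Prime) :
    ∃ A : ValuationSubring (AlgebraicClosure ℚ), A.LiesOverPrime ℓ := by
  let R : Subring (AlgebraicClosure ℚ) := (algebraMap ℤ (AlgebraicClosure ℚ)).range
  let x : R := ⟨(ℓ : AlgebraicClosure ℚ), ⟨(ℓ : ℤ), by simp⟩⟩
  have hI : Ideal.span {x} ≠ ⊤ := by
    rw [Ideal.ne_top_iff_one, Ideal.mem_span_singleton]
    rintro ⟨⟨c, n, rfl⟩, hc⟩
    have h1 := congrArg Subtype.val hc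
    simp only [x] at h1
    have h2 : ((1 : ℤ) : AlgebraicClosure ℚ) = (((ℓ : ℤ) * n : ℤ) : AlgebraicClosure ℚ) := by
      push_cast
      simpa using h1
    have h3 : (1 : ℤ) = (ℓ : ℤ) * n := Int.cast_injective h2
    have h4 : (ℓ : ℤ) ∣ 1 := ⟨n, h3⟩
    have h5 : IsUnit (ℓ : ℤ) := isUnit_of_dvd_one h4
    exact (Nat.prime_iff_prime_int.1 hℓ).not_isUnit h5
  obtain ⟨A, -, hA⟩ := Ideal.image_subset_nonunits_valuationSubring (Ideal.span {x}) hI
  exact ⟨A, hA ⟨x, Ideal.mem_span_singleton_self x, rfl⟩⟩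

/-- Frobenius elements exist at every prime. -/
theorem exists_isFrobeniusAt {ℓ : ℕ} (hℓ : ℓ.Prime) :
    ∃ A : ValuationSubring (AlgebraicClosure ℚ), A.LiesOverPrime ℓ ∧
      ∃ σ : AlgebraicClosure ℚ ≃ₐ[ℚ] AlgebraicClosure ℚ, A.IsFrobeniusAt σ ℓ := by
  obtain ⟨A, hA⟩ := exists_liesOverPrime hℓ
  exact ⟨A, hA, exists_isFrobeniusAt_of_liesOverPrime A hℓ hA⟩

end Fermat.Agent.Lib.Frobenius
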